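import Fermat.Agent.PackingBounds.Cyclotomic
import Fermat.Agent.CombinatorialSieve.Integers
import Mathlib.NumberTheory.PrimesCongruentOne
import Mathlib.NumberTheory.Primorial
import Mathlib.RingTheory.AdjoinRoot
import Mathlib.RingTheory.Polynomial.Cyclotomic.Roots
import Mathlib.RingTheory.ZMod.UnitsCyclic
import Mathlib.Analysis.SpecialFunctions.Log.Deriv

/-!
# Packings of density `n log log n / 2 ^ n`

The ring `ℤ[X] / Φ_m` gives density `m / 2 ^ (2 φ m)` in dimension `2 φ m`; for primorials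
`m / φ m` is of order `log log m` by Mertens.
-/

set_option autoImplicit false

noncomputable section

open Polynomial Finset FA.Perfect

namespace FA.PackingBounds

theorem exists_primitive_mod {m p : ℕ} [Fact p.Prime] (hp : p ≡ 1 [MOD m]) :
    ∃ r : ZMod p, IsPrimitiveRoot r m := by
  have hp1 : 1 < p := (Fact.out : p.Prime).one_lt
  obtain ⟨a, ha⟩ := (Nat.modEq_iff_dvd' hp1.le).1 hp.symm
  obtain ⟨g, hg⟩ := IsCyclic.exists_generator (α := (ZMod p)ˣ)
  have hord : orderOf g = p - 1 := by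
    rw [orderOf_eq_card_of_forall_mem_zpowers hg, Nat.card_eq_fintype_card, ZMod.card_units]
  have h : IsPrimitiveRoot ((g : ZMod p)) (p - 1) :=
    IsPrimitiveRoot.coe_units_iff.2 (hord ▸ IsPrimitiveRoot.orderOf g)
  exact ⟨_, h.pow (by omega) (ha.trans (mul_comm m a))⟩

/-- **Venkatesh's bound.** -/
theorem venkatesh {m : ℕ} (hm : 0 < m) :
    ∃ δ ∈ latticePackingDensities (2 * m.totient),
      (m : ℝ) / 2 ^ (2 * m.totient) ≤ δ := by
  obtain ⟨d, hd⟩ : ∃ d, m.totient = d + 1 :=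
    ⟨m.totient - 1, by have := Nat.totient_pos.2 hm; omega⟩
  have hmon := cyclotomic.monic m ℤ
  have hdim : (AdjoinRoot.powerBasis' hmon).dim = d + 1 := by
    rw [AdjoinRoot.powerBasis'_dim, natDegree_cyclotomic, hd]
  haveI : IsDomain (AdjoinRoot (cyclotomic m ℤ)) :=
    AdjoinRoot.isDomain_of_prime (cyclotomic.irreducible hm).prime
  have hdeg : (cyclotomic m ℤ).degree ≠ 0 := by
    rw [degree_cyclotomic, hd]
    exact_mod_cast Nat.succ_ne_zero d
  haveI : CharZero (AdjoinRoot (cyclotomic m ℤ)) :=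
    charZero_of_injective_ringHom (AdjoinRoot.of.injective_of_degree_ne_zero hdeg)
  haveI : NeZero ((m : ℕ) : AdjoinRoot (cyclotomic m ℤ)) := ⟨Nat.cast_ne_zero.2 hm.ne'⟩
  have hζ : IsPrimitiveRoot (AdjoinRoot.root (cyclotomic m ℤ)) m := by
    rw [← isRoot_cyclotomic_iff, ← map_cyclotomic m (AdjoinRoot.of (cyclotomic m ℤ))]
    exact AdjoinRoot.isRoot_root _
  obtain ⟨δ, hδ⟩ := exists_densest (2 * d + 1)
  have e : 2 * m.totient = 2 * d + 1 + 1 := by omega
  rw [e]
  refine ⟨δ, hδ.1, densest_ge_of_ring hm hζ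
    ((AdjoinRoot.powerBasis' hmon).basis.reindex (finCongr hdim)) ?_ (fun M => ?_) hδ⟩
  · rw [Module.Basis.reindex_apply, PowerBasis.basis_eq_pow]
    simp
  · obtain ⟨p, hp, hMp, hmod⟩ := Nat.exists_prime_gt_modEq_one M hm.ne'
    haveI : Fact p.Prime := ⟨hp⟩
    obtain ⟨r, hr⟩ := exists_primitive_mod hmod
    refine ⟨p, hp, hMp, ⟨AdjoinRoot.lift (Int.castRingHom (ZMod p)) r ?_⟩⟩
    rw [← eval_map, map_cyclotomic]
    exact hr.isRoot_cyclotomic hm

/-- **Venkatesh's theorem.** -/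
theorem exists_dense_loglog :
    ∃ c : ℝ, 0 < c ∧ ∀ N : ℕ, ∃ n ≥ N, ∃ δ ∈ latticePackingDensities n,
      c * n * Real.log (Real.log n) / 2 ^ n ≤ δ := by
  obtain ⟨c₀, C, hc₀, hMert⟩ := FA.CombinatorialSieve.exists_mertens_product
  have hC : 0 < C := by
    obtain ⟨h1, h2⟩ := hMert 2 le_rfl
    have hl : (0 : ℝ) < Real.log 2 := Real.log_pos one_lt_two
    exact (div_pos_iff_of_pos_right hl).1 ((div_pos hc₀ hl).trans_le (h1.trans h2))
  refine ⟨1 / (4 * C), by positivity, fun N => ?_⟩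
  obtain ⟨z, hzN, hz⟩ := Nat.exists_infinite_primes (N + 3)
  obtain ⟨m, hm⟩ : ∃ m, m = primorial z := ⟨_, rfl⟩
  have hm0 : 0 < m := hm ▸ primorial_pos z
  have hzm : z ∣ m := hm ▸ hz.dvd_primorial_iff.2 le_rfl
  have hphi : z - 1 ≤ m.totient :=
    Nat.totient_prime hz ▸ Nat.le_of_dvd (Nat.totient_pos.2 hm0) (Nat.totient_dvd_of_dvd hzm)
  obtain ⟨δ, hδ, hle⟩ := venkatesh hm0
  refine ⟨2 * m.totient, by omega, δ, hδ, le_trans ?_ hle⟩
  have hfac : m.primeFactors = (range (z + 1)).filter Nat.Prime := by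
    ext q
    rw [Nat.mem_primeFactors, Finset.mem_filter, Finset.mem_range, hm]
    refine ⟨fun h => ⟨Nat.lt_succ_of_le (h.1.dvd_primorial_iff.1 h.2.1), h.1⟩,
      fun h => ⟨h.2, h.2.dvd_primorial_iff.2 (Nat.le_of_lt_succ h.1), (primorial_pos z).ne'⟩⟩
  have htot : (m.totient : ℝ) = m * ∏ q ∈ (range (z + 1)).filter Nat.Prime, (1 - (q : ℝ)⁻¹) := by
    have h := congrArg (Rat.cast : ℚ → ℝ) (Nat.totient_eq_mul_prod_factors m)
    rw [hfac] at h
    simpa using h
  have hz3 : (3 : ℝ) ≤ z := by exact_mod_cast (show 3 ≤ z by omega)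
  have hlz : 0 < Real.log z := Real.log_pos (by linarith)
  have h1 : (m.totient : ℝ) ≤ m * (C / Real.log z) := by
    obtain ⟨-, h2⟩ := hMert ((z + 1 : ℕ) : ℝ) (by push_cast; linarith)
    rw [Nat.ceil_natCast] at h2
    rw [htot]
    gcongr
    refine h2.trans ?_
    gcongr
    push_cast
    linarith
  obtain ⟨n, hn⟩ : ∃ n : ℕ, n = 2 * m.totient := ⟨_, rfl⟩
  rw [← hn]
  have hn2 : (2 : ℝ) ≤ n := by exact_mod_cast (show 2 ≤ n by omega)
  have hlog : Real.log n ≤ 3 * z := by
    have hle4 : (n : ℝ) ≤ 2 * 4 ^ z := by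
      have : n ≤ 2 * 4 ^ z := hn ▸ Nat.mul_le_mul_left 2
        ((Nat.totient_le m).trans (hm ▸ primorial_le_four_pow z))
      exact_mod_cast this
    refine (Real.log_le_log (by linarith) hle4).trans ?_
    rw [Real.log_mul two_ne_zero (by positivity), Real.log_pow,
      show Real.log 4 = 2 * Real.log 2 by
        rw [show (4 : ℝ) = 2 ^ 2 by norm_num, Real.log_pow]; norm_num]
    nlinarith [Real.log_two_lt_d9, Real.log_pos one_lt_two]
  have hll : Real.log (Real.log n) ≤ 2 * Real.log z := by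
    refine (Real.log_le_log (Real.log_pos (by linarith)) hlog).trans ?_
    rw [Real.log_mul three_ne_zero (by positivity), two_mul]
    gcongr
  rw [div_le_div_iff_of_pos_right (by positivity), one_div_mul_eq_div, div_mul_eq_mul_div,
    div_le_iff₀ (by positivity)]
  calc (n : ℝ) * Real.log (Real.log n) ≤ (2 * (m * (C / Real.log z))) * (2 * Real.log z) := by
        refine mul_le_mul_of_nonneg (le_of_eq_of_le ?_ (mul_le_mul_of_nonneg_left h1 two_pos.le))
          hll (by positivity) (by positivity)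
        rw [hn]
        push_cast
        ring
    _ = (m : ℝ) * (4 * C) := by
        field_simp
        ring

end FA.PackingBounds

end
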