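import Fermat.Agent.Perfect.Packing

/-!
# Packings from forms

A positive form gives a lattice packing of balls of density `V √(μ ^ m / det) / 2 ^ m`, with `μ`
the minimum of the form and `V` the volume of the unit ball.
-/

set_option autoImplicit false

noncomputable section

open MeasureTheory Matrix FA.Perfect

namespace FA.PackingBounds

variable {n : ℕ}

/-- The volume of the unit ball. -/
def unitVol (m : ℕ) : ℝ := volume.real (Metric.ball (0 : EuclideanSpace ℝ (Fin m)) 1)

theorem unitVol_eq (n : ℕ) :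
    unitVol (n + 1) = Real.sqrt Real.pi ^ (n + 1) / Real.Gamma ((n + 1 : ℕ) / 2 + 1) := by
  rw [unitVol, volume_real_euclidBall n zero_le_one, one_pow, one_mul]

theorem unitVol_pos (n : ℕ) : 0 < unitVol (n + 1) := by
  rw [unitVol_eq]
  exact div_pos (pow_pos (Real.sqrt_pos.2 Real.pi_pos) _) (Real.Gamma_pos_of_pos (by positivity))

/-- The density of the densest packing is at least that of any form. -/
theorem densest_ge {δ : ℝ} (hδ : IsGreatest (latticePackingDensities (n + 1)) δ)
    {P : Matrix (Fin (n + 1)) (Fin (n + 1)) ℝ} (hP : P.PosDef) :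
    unitVol (n + 1) * (Real.sqrt (hermiteInv P) / 2 ^ (n + 1)) ≤ δ := by
  obtain ⟨P₀, hP₀, -, hmax, -⟩ := exists_least_det n
  have h := isGreatest_packing ⟨⟨P₀, hP₀, rfl⟩, Set.forall_mem_image.2 fun Q hQ => hmax Q hQ⟩
  rw [hδ.unique h, ← unitVol_eq]
  gcongr
  · exact (unitVol_pos n).le
  · exact hmax P hP

/-- The same from the product of the successive minima. -/
theorem densest_ge_minima {δ : ℝ} (hδ : IsGreatest (latticePackingDensities (n + 1)) δ)
    {P : Matrix (Fin (n + 1)) (Fin (n + 1)) ℝ} (hP : P.PosDef) :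
    unitVol (n + 1) * (Real.sqrt ((∏ k, succMin P k) / P.det) / 2 ^ (n + 1)) ≤ δ := by
  obtain ⟨P₀, hP₀, -, hmax, -⟩ := exists_least_det n
  have h := isGreatest_packing ⟨⟨P₀, hP₀, rfl⟩, Set.forall_mem_image.2 fun Q hQ => hmax Q hQ⟩
  rw [hδ.unique h, ← unitVol_eq]
  gcongr
  · exact (unitVol_pos n).le
  · exact (div_le_iff₀ hP.det_pos).2 (prod_succMin_bounds hP fun Q hQ => hmax Q hQ).2

end FA.PackingBounds

end
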