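import Fermat.Agent.PackingBounds.Basic
import Fermat.Agent.MinkowskiHlawka.Count
import Mathlib.Analysis.Convex.Measure

/-!
# Lattice points in ellipsoids

A positive form takes values at most `x ^ 2` at `~ V x ^ m / √det` integral vectors; a sublattice
of index `p` on which it exceeds `T ^ 2` gives a packing of density at least
`V T ^ m / (p √det) / 2 ^ m`.
-/

set_option autoImplicit false

noncomputable section

open MeasureTheory Matrix Set Filter Topology FA.Perfect FA.Reduction FA.OrthogonalUnits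
open scoped Pointwise

namespace FA.PackingBounds

variable {n : ℕ}

theorem exists_sqrt {Q : Matrix (Fin (n + 1)) (Fin (n + 1)) ℝ} (hQ : Q.PosDef) :
    ∃ B : Matrix (Fin (n + 1)) (Fin (n + 1)) ℝ, B.det ≠ 0 ∧ Bᵀ * B = Q ∧
      |B.det| = Real.sqrt Q.det := by
  obtain ⟨d, T, hd, -, -, hQT⟩ := exists_upper hQ
  obtain ⟨B, hBdef⟩ : ∃ B, B = Matrix.diagonal (fun i => Real.sqrt (d i)) * T := ⟨_, rfl⟩
  have hB : Bᵀ * B = Q := by
    rw [hQT, hBdef, show (Matrix.diagonal (fun i => Real.sqrt (d i)) * T)ᵀ *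
        (Matrix.diagonal (fun i => Real.sqrt (d i)) * T) =
          Tᵀ * (Matrix.diagonal (fun i => Real.sqrt (d i)) *
          Matrix.diagonal (fun i => Real.sqrt (d i))) * T by
        simp only [transpose_mul, Matrix.diagonal_transpose, Matrix.mul_assoc],
      Matrix.diagonal_mul_diagonal]
    exact congrArg (fun v => Tᵀ * Matrix.diagonal v * T)
      (funext fun i => Real.mul_self_sqrt (hd i).le)
  have hdet : |B.det| = Real.sqrt Q.det := by
    rw [← hB, det_mul, det_transpose, Real.sqrt_mul_self_eq_abs]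
  exact ⟨B, fun h => by
    rw [h, abs_zero] at hdet
    exact (Real.sqrt_pos.2 hQ.det_pos).ne hdet, hB, hdet⟩

/-- **Lattice points in a large ellipsoid.** -/
theorem tendsto_ival_count {Q : Matrix (Fin (n + 1)) (Fin (n + 1)) ℝ} (hQ : Q.PosDef) :
    Tendsto (fun x : ℝ =>
        ({z : Fin (n + 1) → ℤ | ival Q z ≤ x ^ 2}.ncard : ℝ) / x ^ (n + 1))
      atTop (𝓝 (unitVol (n + 1) / Real.sqrt Q.det)) := by
  obtain ⟨B, hB0, hB, hBdet⟩ := exists_sqrt hQ
  obtain ⟨S, hS⟩ : ∃ S : Set (Fin (n + 1) → ℝ), S = {x | quad Q x ≤ 1} := ⟨_, rfl⟩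
  have hnorm : ∀ x, quad Q x = ‖WithLp.toLp 2 (Matrix.toLin' B x)‖ ^ 2 := fun x => by
    rw [← hB, quad_transpose_mul_self, EuclideanSpace.real_norm_sq_eq]
    rfl
  have hpre : S = Matrix.toLin' B ⁻¹'
      (WithLp.toLp 2 ⁻¹' Metric.closedBall (0 : EuclideanSpace ℝ (Fin (n + 1))) 1) := by
    ext x
    rw [hS, mem_ofPred_eq, hnorm, mem_preimage, mem_preimage, mem_closedBall_zero_iff,
      sq_le_one_iff₀ (norm_nonneg _)]
  have hSm : MeasurableSet S := by
    rw [hpre]
    exact (measurableSet_closedBall.preimage (by fun_prop)).preimage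
      (Matrix.toLin' B).continuous_of_finiteDimensional.measurable
  have hSb : Bornology.IsBounded S := by
    refine (Metric.isBounded_closedBall (x := (0 : Fin (n + 1) → ℝ))
      (r := Real.sqrt (Q⁻¹).trace)).subset fun x hx => ?_
    rw [hS] at hx
    rw [mem_closedBall_zero_iff, pi_norm_le_iff_of_nonneg (Real.sqrt_nonneg _)]
    intro i
    refine Real.le_sqrt_of_sq_le ?_
    rw [Real.norm_eq_abs, sq_abs]
    refine (sq_le_quad_mul hQ i x).trans ?_
    refine (mul_le_mul_of_nonneg_right (hx : quad Q x ≤ 1) ?_).trans ?_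
    · exact hQ.inv.diag_pos.le
    · rw [one_mul, Matrix.trace]
      exact Finset.single_le_sum (f := fun j => Q⁻¹.diag j)
        (fun j _ => hQ.inv.diag_pos.le) (Finset.mem_univ i)
  have hconv : Convex ℝ S := by
    rw [hpre]
    exact ((convex_closedBall _ _).linear_preimage
      (WithLp.linearEquiv 2 ℝ (Fin (n + 1) → ℝ)).symm.toLinearMap).linear_preimage _
  have hscale : ∀ ⦃x y : ℝ⦄, 0 < x → x ≤ y → x • S ⊆ y • S := by
    intro x y hx hxy
    rintro _ ⟨s, hs, rfl⟩
    refine ⟨(x / y) • s, ?_, by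
      show y • (x / y) • s = x • s
      rw [smul_smul, mul_div_cancel₀ _ (hx.trans_le hxy).ne']⟩
    rw [hS, mem_ofPred_eq] at hs ⊢
    rw [quad, mulVec_smul, dotProduct_smul, smul_dotProduct, smul_eq_mul, smul_eq_mul, ← mul_assoc]
    have h0 : 0 ≤ x / y := div_nonneg hx.le (hx.le.trans hxy)
    exact mul_le_one₀ (mul_le_one₀ ((div_le_one (hx.trans_le hxy)).2 hxy) h0
      ((div_le_one (hx.trans_le hxy)).2 hxy))
      (by rw [hnorm] at hs; exact (sq_nonneg _).trans_eq (hnorm s).symm) hs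
  have hvol : volume.real S = unitVol (n + 1) / Real.sqrt Q.det := by
    rw [hpre, Measure.real, Measure.addHaar_preimage_linearMap _
      (by rw [LinearMap.det_toLin']; exact hB0), LinearMap.det_toLin',
      (PiLp.volume_preserving_toLp (Fin (n + 1))).measure_preimage
        measurableSet_closedBall.nullMeasurableSet, Measure.addHaar_closedBall_eq_addHaar_ball,
      ENNReal.toReal_mul, ENNReal.toReal_ofReal (abs_nonneg _), abs_inv, hBdet, unitVol,
      Measure.real, div_eq_inv_mul]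
  have h := tendsto_card_div_pow_atTop_volume' S hSb hSm (hconv.addHaar_frontier volume) hscale
  rw [hvol, Fintype.card_fin] at h
  refine h.congr' ?_
  filter_upwards [eventually_gt_atTop 0] with x hx
  rw [FA.MinkowskiHlawka.card_inter_smul_span S hx]
  have e : {z : Fin (n + 1) → ℤ | x⁻¹ • FA.MinkowskiHlawka.castVec z ∈ S} =
      {z : Fin (n + 1) → ℤ | ival Q z ≤ x ^ 2} := by
    ext z
    show x⁻¹ • _ ∈ S ↔ quad Q _ ≤ x ^ 2
    rw [hS, mem_ofPred_eq, quad, mulVec_smul, dotProduct_smul, smul_dotProduct, smul_eq_mul,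
      smul_eq_mul, ← mul_assoc, ← sq, inv_pow, inv_mul_le_iff₀ (by positivity), mul_one]
    rfl
  rw [e]

/-- **The packing from a sublattice.** -/
theorem densest_ge_sublattice {δ : ℝ} (hδ : IsGreatest (latticePackingDensities (n + 1)) δ)
    {Q : Matrix (Fin (n + 1)) (Fin (n + 1)) ℝ} (hQ : Q.PosDef)
    {M : Matrix (Fin (n + 1)) (Fin (n + 1)) ℤ} {p : ℕ} (hp : 0 < p) (hM : |M.det| = p)
    {T : ℝ} (h : ∀ y : Fin (n + 1) → ℤ, y ≠ 0 → T ^ 2 ≤ ival Q (M *ᵥ y)) :
    unitVol (n + 1) * (T ^ (n + 1) / (p * Real.sqrt Q.det) / 2 ^ (n + 1)) ≤ δ := by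
  have habs : |(toReal M).det| = p := by
    rw [det_toReal, ← Int.cast_abs, hM, Int.cast_natCast]
  have hM0 : (toReal M).det ≠ 0 := fun h0 => by
    rw [h0, abs_zero] at habs
    exact (Nat.cast_pos.2 hp).ne habs
  obtain ⟨P, hP⟩ : ∃ P, P = (toReal M)ᵀ * Q * toReal M := ⟨_, rfl⟩
  have hPd : P.PosDef := by
    rw [hP, ← conjTranspose_eq_transpose_of_trivial]
    exact hQ.conjTranspose_mul_mul_same (mulVec_injective_of_isUnit_det (isUnit_iff_ne_zero.2 hM0))
  have hval : ∀ y, ival P y = ival Q (M *ᵥ y) := fun y => by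
    show quad P _ = quad Q _
    have e : (fun i => (((M *ᵥ y) i : ℤ) : ℝ)) = toReal M *ᵥ fun i => (y i : ℝ) :=
      funext fun i => by simp [toReal, mulVec, dotProduct]
    rw [e, hP, quad, quad, ← mulVec_mulVec, ← mulVec_mulVec,
      dotProduct_mulVec _ (toReal M)ᵀ, vecMul_transpose]
  have hmin : T ^ 2 ≤ minVal P := le_minVal fun y hy => (h y hy).trans_eq (hval y).symm
  refine le_trans ?_ (densest_ge hδ hPd)
  have hV := (unitVol_pos n).le
  have hp' : (0 : ℝ) < p := Nat.cast_pos.2 hp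
  have hdet : P.det = (p : ℝ) ^ 2 * Q.det := by
    rw [hP, det_mul, det_mul, det_transpose, ← habs, sq_abs]
    ring
  gcongr
  rw [hermiteInv, hdet, Real.sqrt_div (pow_nonneg (minVal_pos hPd).le _),
    Real.sqrt_mul (by positivity), Real.sqrt_sq hp'.le]
  gcongr
  refine Real.le_sqrt_of_sq_le ?_
  rw [← pow_mul, mul_comm, pow_mul]
  exact pow_le_pow_left₀ (sq_nonneg _) hmin _

end FA.PackingBounds

end
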