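import Fermat.Agent.PackingBounds.Count
import Mathlib.LinearAlgebra.Matrix.AbsoluteValue
import Mathlib.RingTheory.Norm.Basic
import Mathlib.RingTheory.RootsOfUnity.PrimitiveRoots

/-!
# Venkatesh's lattices

Let `ζ` be a primitive `m`-th root of unity in a domain `O` free of rank `D`.  On `O × O` take
a form invariant under `ζ`.  For a prime `p` with `ψ : O → 𝔽_p` the `p` sublattices
`ψ b = t ψ a` share no short vector, and the short vectors of each fall into orbits of `m`
points.  So one of them has none once there are fewer than `m p` short vectors in all.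
-/

set_option autoImplicit false

noncomputable section

open Matrix Set Filter Topology Module FA.Perfect FA.Reduction FA.OrthogonalUnits

namespace FA.PackingBounds

variable {m d : ℕ} {O : Type*} [CommRing O] [IsDomain O] {ζ : O}

omit [IsDomain O] in
/-- Determinants of multiplications are small for short elements. -/
theorem exists_norm_bound (b : Basis (Fin (d + 1)) ℤ O) :
    ∃ C : ℝ, 0 ≤ C ∧ ∀ (a : O) (r : ℝ), (∀ l, |(b.repr a l : ℝ)| ≤ r) →
      |((Algebra.leftMulMatrix b a).det : ℝ)| ≤ C * r ^ (d + 1) := by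
  obtain ⟨C₁, hC₁⟩ : ∃ C₁ : ℝ,
      C₁ = ∑ l, ∑ i, ∑ j, |(Algebra.leftMulMatrix b (b l) i j : ℝ)| := ⟨_, rfl⟩
  refine ⟨(Nat.factorial (d + 1) : ℝ) * C₁ ^ (d + 1),
    mul_nonneg (Nat.cast_nonneg _) (pow_nonneg (hC₁ ▸ by positivity) _), fun a r hr => ?_⟩
  have hr0 : 0 ≤ r := (abs_nonneg _).trans (hr 0)
  have hentry : ∀ i j, |(toReal (Algebra.leftMulMatrix b a) i j)| ≤ r * C₁ := fun i j => by
    have e : Algebra.leftMulMatrix b a i j =
        ∑ l, b.repr a l * Algebra.leftMulMatrix b (b l) i j := by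
      conv_lhs => rw [← b.sum_repr a]
      simp only [map_sum, map_zsmul, Matrix.sum_apply, Matrix.smul_apply, smul_eq_mul]
    rw [toReal, Matrix.map_apply, e, Int.cast_sum]
    simp only [Int.cast_mul]
    refine (Finset.abs_sum_le_sum_abs _ _).trans ?_
    rw [hC₁, Finset.mul_sum]
    refine Finset.sum_le_sum fun l _ => ?_
    rw [abs_mul]
    refine mul_le_mul (hr l) ?_ (abs_nonneg _) hr0
    exact (Finset.single_le_sum
      (f := fun j => |(Algebra.leftMulMatrix b (b l) i j : ℝ)|)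
      (fun _ _ => abs_nonneg _) (Finset.mem_univ j)).trans (Finset.single_le_sum
      (f := fun i => ∑ j, |(Algebra.leftMulMatrix b (b l) i j : ℝ)|)
      (fun _ _ => Finset.sum_nonneg fun _ _ => abs_nonneg _) (Finset.mem_univ i))
  have h := Matrix.det_le (abv := AbsoluteValue.abs) (A := toReal (Algebra.leftMulMatrix b a))
    hentry
  rw [Fintype.card_fin, nsmul_eq_mul, det_toReal] at h
  exact h.trans_eq (by ring)

omit [IsDomain O] in
/-- A ring map to `𝔽_p` kills only elements of norm divisible by `p`. -/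
theorem dvd_det_of_map_eq_zero (b : Basis (Fin (d + 1)) ℤ O) (hb0 : b 0 = 1) {p : ℕ}
    [Fact p.Prime] (ψ : O →+* ZMod p) {a : O} (ha : ψ a = 0) :
    (p : ℤ) ∣ (Algebra.leftMulMatrix b a).det := by
  rw [← ZMod.intCast_zmod_eq_zero_iff_dvd]
  obtain ⟨W, hW⟩ : ∃ W : Matrix (Fin (d + 1)) (Fin (d + 1)) (ZMod p),
      W = (Int.castRingHom (ZMod p)).mapMatrix (Algebra.leftMulMatrix b a) := ⟨_, rfl⟩
  have hdet : W.det = 0 := by
    refine Matrix.exists_vecMul_eq_zero_iff.1 ⟨fun i => ψ (b i), fun h => ?_, funext fun j => ?_⟩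
    · simpa [hb0] using congrFun h 0
    · have e := congrArg ψ (b.sum_repr (a * b j))
      rw [show ψ (a * b j) = 0 by rw [map_mul, ha, zero_mul], map_sum] at e
      show ∑ i, ψ (b i) * W i j = 0
      refine (Finset.sum_congr rfl fun i _ => ?_).trans e
      rw [hW, RingHom.mapMatrix_apply, Matrix.map_apply, Algebra.leftMulMatrix_eq_repr_mul]
      simp [zsmul_eq_mul, mul_comm]
  rw [hW, ← RingHom.map_det] at hdet
  exact hdet

omit [IsDomain O] in
theorem exists_twist (b : Basis (Fin (d + 1)) ℤ O) (hb0 : b 0 = 1) {p : ℕ} [Fact p.Prime]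
    (ψ : O →+* ZMod p) (t : ZMod p) :
    ∃ G : (O × O) →ₗ[ℤ] (O × O), |LinearMap.det G| = p ∧
      ∀ x, ψ (G x).2 = t * ψ (G x).1 := by
  haveI : Module.Finite ℤ O := Module.Finite.of_basis b
  haveI : Module.Free ℤ O := Module.Free.of_basis b
  obtain ⟨g, hg⟩ : ∃ g : O →ₗ[ℤ] O, g = b.constr ℤ fun i : Fin (d + 1) =>
      if i = 0 then (p : O) else b i - ((ψ (b i)).val : O) := ⟨_, rfl⟩
  have hψg : ∀ a, ψ (g a) = 0 := fun a => by
    rw [hg, ← b.sum_repr a, map_sum, map_sum]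
    refine Finset.sum_eq_zero fun i _ => ?_
    rw [map_zsmul, Basis.constr_basis, map_zsmul]
    split_ifs <;> simp
  have hbd : ∀ k : ℕ, b.repr (k : O) = Finsupp.single 0 (k : ℤ) := fun k => by
    rw [show (k : O) = (k : ℤ) • b 0 by rw [hb0, zsmul_eq_mul, mul_one, Int.cast_natCast],
      map_zsmul, b.repr_self, Finsupp.smul_single, smul_eq_mul, mul_one]
  have hgb : ∀ i, g (b i) = if i = 0 then (p : O) else b i - ((ψ (b i)).val : O) := fun i => by
    rw [hg, Basis.constr_basis]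
  have hdetg : LinearMap.det g = p := by
    rw [← LinearMap.det_toMatrix b, Matrix.det_of_isUpperTriangular]
    · rw [Fin.prod_univ_succ, Finset.prod_eq_one fun i _ => ?_, mul_one]
      · simp [LinearMap.toMatrix_apply, hgb, hbd, -ZMod.natCast_val]
      · simp [LinearMap.toMatrix_apply, hgb, hbd, -ZMod.natCast_val, Fin.succ_ne_zero]
    · intro i j hij
      have hi : i ≠ 0 := fun h => by simp [h] at hij
      rcases eq_or_ne j 0 with rfl | hj
      · simp [LinearMap.toMatrix_apply, hgb, hbd, -ZMod.natCast_val, hi]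
      · simp [LinearMap.toMatrix_apply, hgb, hbd, -ZMod.natCast_val, hj, hi, (ne_of_gt hij : i ≠ j)]
  obtain ⟨c, hc⟩ : ∃ c : O, c = ((t.val : ℕ) : O) := ⟨_, rfl⟩
  obtain ⟨S, hS⟩ : ∃ S : O → (O × O) →ₗ[ℤ] (O × O), S = fun u => (LinearMap.fst ℤ O O).prod
      (LinearMap.snd ℤ O O + (LinearMap.mulLeft ℤ u).comp (LinearMap.fst ℤ O O)) := ⟨_, rfl⟩
  have hSdet : |LinearMap.det (S c)| = 1 := by
    have h : LinearMap.det (S c) * LinearMap.det (S (-c)) = 1 := by
      rw [← LinearMap.det_comp, show (S c).comp (S (-c)) = LinearMap.id from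
        LinearMap.ext fun x => by rw [hS]; ext <;> simp, LinearMap.det_id]
    exact Int.isUnit_iff_abs_eq.1 (IsUnit.of_mul_eq_one _ h)
  refine ⟨(S c).comp (LinearMap.prodMap LinearMap.id g), ?_, fun x => ?_⟩
  · rw [LinearMap.det_comp, LinearMap.det_prodMap, LinearMap.det_id, one_mul, abs_mul, hSdet,
      hdetg, one_mul, Nat.abs_cast]
  · rw [hS]
    simp [hψg, hc]

/-- **Venkatesh's bound in a ring with a root of unity.** -/
theorem densest_ge_of_ring (hm : 0 < m) (hζ : IsPrimitiveRoot ζ m)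
    (b : Basis (Fin (d + 1)) ℤ O) (hb0 : b 0 = 1)
    (hprimes : ∀ M : ℕ, ∃ p : ℕ, p.Prime ∧ M < p ∧ Nonempty (O →+* ZMod p))
    {δ : ℝ} (hδ : IsGreatest (latticePackingDensities (2 * d + 1 + 1)) δ) :
    (m : ℝ) / 2 ^ (2 * d + 1 + 1) ≤ δ := by
  classical
  obtain ⟨B, hBdef⟩ : ∃ B : Basis (Fin (2 * d + 1 + 1)) ℤ (O × O),
      B = (b.prod b).reindex (finSumFinEquiv.trans (finCongr (by omega))) := ⟨_, rfl⟩
  obtain ⟨A, hA⟩ : ∃ A : Matrix (Fin (2 * d + 1 + 1)) (Fin (2 * d + 1 + 1)) ℤ,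
      A = LinearMap.toMatrix B B
        ((LinearMap.mulLeft ℤ ζ).prodMap (LinearMap.mulLeft ℤ ζ)) := ⟨_, rfl⟩
  have hpow : ∀ (k : ℕ) (x : O × O), (A ^ k) *ᵥ B.equivFun x =
      B.equivFun (ζ ^ k * x.1, ζ ^ k * x.2) := fun k => by
    induction k with
    | zero => intro x; simp
    | succ k ih =>
      intro x
      rw [pow_succ, ← mulVec_mulVec, hA, B.equivFun_apply, LinearMap.toMatrix_mulVec_repr,
        ← B.equivFun_apply, ← hA, ih]
      simp [pow_succ, mul_assoc]
  obtain ⟨Q, hQdef⟩ : ∃ Q : Matrix (Fin (2 * d + 1 + 1)) (Fin (2 * d + 1 + 1)) ℝ,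
      Q = ∑ k ∈ Finset.range m, (toReal (A ^ k))ᵀ * toReal (A ^ k) := ⟨_, rfl⟩
  have hQ : Q.PosDef := by
    obtain ⟨m', rfl⟩ : ∃ m', m = m' + 1 := ⟨m - 1, by omega⟩
    rw [hQdef, Finset.sum_range_succ']
    refine Matrix.PosDef.posSemidef_add (Matrix.posSemidef_sum _ fun k _ => ?_) ?_
    · rw [← conjTranspose_eq_transpose_of_trivial]
      exact posSemidef_conjTranspose_mul_self _
    · have e : toReal (A ^ 0) = 1 := by ext i j; simp [toReal, Matrix.one_apply]
      rw [e, transpose_one, Matrix.mul_one]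
      exact Matrix.PosDef.one
  obtain ⟨q, hq⟩ : ∃ q : O × O → ℝ, q = fun x => ival Q (B.equivFun x) := ⟨_, rfl⟩
  obtain ⟨w, hw⟩ : ∃ w : O × O → ℝ, w = fun x => ∑ i, ((B.equivFun x i : ℤ) : ℝ) ^ 2 := ⟨_, rfl⟩
  have hqsum : ∀ x, q x = ∑ k ∈ Finset.range m, w (ζ ^ k * x.1, ζ ^ k * x.2) := fun x => by
    rw [hq]
    show quad Q _ = _
    rw [hQdef, quad, sum_mulVec, dotProduct_sum]
    refine Finset.sum_congr rfl fun k _ => ?_
    rw [hw, ← quad, quad_transpose_mul_self]
    simp only [← hpow]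
    exact Finset.sum_congr rfl fun i _ => by
      congr 1
      simp [toReal, mulVec, dotProduct]
  have hinv : ∀ (k : ℕ) (x : O × O), q (ζ ^ k * x.1, ζ ^ k * x.2) = q x := fun k => by
    induction k with
    | zero => intro x; simp
    | succ k ih =>
      intro x
      have h1 : q (ζ * x.1, ζ * x.2) = q x := by
        rw [hqsum, hqsum]
        simp only [← mul_assoc, ← pow_succ]
        have h := Finset.sum_range_succ' (fun k => w (ζ ^ k * x.1, ζ ^ k * x.2)) m
        have h' := Finset.sum_range_succ (fun k => w (ζ ^ k * x.1, ζ ^ k * x.2)) m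
        simp only [hζ.pow_eq_one, pow_zero] at h h'
        linarith
      rw [← h1, ← ih (ζ * x.1, ζ * x.2)]
      simp [pow_succ, mul_assoc]
  have hw0 : ∀ x i, |(B.equivFun x i : ℝ)| ≤ Real.sqrt (q x) := fun x i => by
    refine Real.le_sqrt_of_sq_le ?_
    rw [sq_abs, hqsum]
    refine le_trans ?_ (Finset.single_le_sum (f := fun k => w (ζ ^ k * x.1, ζ ^ k * x.2))
      (fun k _ => hw ▸ Finset.sum_nonneg fun _ _ => sq_nonneg _) (Finset.mem_range.2 hm))
    simp only [pow_zero, one_mul, hw, Prod.mk.eta]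
    exact Finset.single_le_sum (f := fun i => ((B.equivFun x i : ℤ) : ℝ) ^ 2)
      (fun _ _ => sq_nonneg _) (Finset.mem_univ i)
  obtain ⟨C, hC0, hC⟩ := exists_norm_bound b
  refine le_of_forall_lt_imp_le_of_dense fun c' hc' => ?_
  rcases le_or_gt c' 0 with hc0 | hc0
  · obtain ⟨_, r, -, -, -, e⟩ := hδ.1
    exact hc0.trans (e ▸ div_nonneg MeasureTheory.measureReal_nonneg (abs_nonneg _))
  obtain ⟨c, hcdef⟩ : ∃ c : ℝ, c = c' * 2 ^ (2 * d + 1 + 1) := ⟨_, rfl⟩
  have hcpos : 0 < c := hcdef ▸ by positivity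
  have hcm : c < m := hcdef ▸ (lt_div_iff₀ (by positivity)).1 hc'
  obtain ⟨K, hK⟩ : ∃ K : ℝ, K = unitVol (2 * d + 1 + 1) / Real.sqrt Q.det := ⟨_, rfl⟩
  have hK0 : 0 < K := hK ▸ div_pos (unitVol_pos _) (Real.sqrt_pos.2 hQ.det_pos)
  obtain ⟨X, hX⟩ := eventually_atTop.1 ((tendsto_ival_count hQ).eventually_lt_const
    (show unitVol (2 * d + 1 + 1) / Real.sqrt Q.det < K * m / c from by
      rw [← hK, lt_div_iff₀ hcpos]
      exact mul_lt_mul_of_pos_left hcm hK0))
  obtain ⟨p, hp, hpM, ⟨ψ⟩⟩ := hprimes (⌈max (C ^ 2 * c / K) ((max X 1) ^ (2 * d + 1 + 1) * K / c)⌉₊)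
  haveI : Fact p.Prime := ⟨hp⟩
  have hpR : max (C ^ 2 * c / K) ((max X 1) ^ (2 * d + 1 + 1) * K / c) < p :=
    (Nat.le_ceil _).trans_lt (Nat.cast_lt.2 hpM)
  obtain ⟨hp1, hp2⟩ := max_lt_iff.1 hpR
  have hp0 : (0 : ℝ) < p := Nat.cast_pos.2 hp.pos
  obtain ⟨T, hT, hTpow⟩ : ∃ T : ℝ, 0 < T ∧ T ^ (2 * d + 1 + 1) = c * p / K :=
    ⟨(c * p / K) ^ ((((2 * d + 1 + 1 : ℕ) : ℝ))⁻¹), by positivity,
      Real.rpow_inv_natCast_pow (by positivity) (Nat.succ_ne_zero _)⟩
  have hXT : max X 1 ≤ T := by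
    refine le_of_pow_le_pow_left₀ (Nat.succ_ne_zero (2 * d + 1)) hT.le ?_
    show _ ^ (2 * d + 1 + 1) ≤ T ^ (2 * d + 1 + 1)
    rw [hTpow, le_div_iff₀ hK0]
    rw [div_lt_iff₀ hcpos] at hp2
    linarith
  -- there are few short vectors
  have hcount : ({z : Fin (2 * d + 1 + 1) → ℤ | ival Q z ≤ T ^ 2}.ncard : ℝ) < m * p := by
    have h := hX T ((le_max_left X 1).trans hXT)
    rw [div_lt_iff₀ (by positivity), hTpow] at h
    refine h.trans_eq ?_
    field_simp
  -- and none with both images zero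
  have hbad : ∀ x : O × O, x ≠ 0 → q x ≤ T ^ 2 → ψ x.1 = 0 → ψ x.2 = 0 → False := by
    intro x hx hxq h1 h2
    have key : ∀ a : O, a ≠ 0 → ψ a = 0 →
        (∀ l, |(b.repr a l : ℝ)| ≤ T) → False := by
      intro a ha hψ hl
      have hdet : (Algebra.leftMulMatrix b a).det ≠ 0 :=
        (Algebra.norm_eq_matrix_det b a) ▸ (Algebra.norm_ne_zero_iff_of_basis b).2 ha
      have hle : (p : ℤ) ≤ |(Algebra.leftMulMatrix b a).det| :=
        Int.le_of_dvd (abs_pos.2 hdet) ((dvd_abs _ _).2 (dvd_det_of_map_eq_zero b hb0 ψ hψ))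
      have hle' : (p : ℝ) ≤ C * T ^ (d + 1) := by
        refine le_trans ?_ (hC a T hl)
        exact_mod_cast hle
      have hsq : (p : ℝ) ^ 2 ≤ C ^ 2 * (c * p / K) := by
        refine (pow_le_pow_left₀ hp0.le hle' 2).trans_eq ?_
        rw [mul_pow, ← pow_mul, ← hTpow]
        ring_nf
      rw [div_lt_iff₀ hK0] at hp1
      rw [mul_div_assoc', le_div_iff₀ hK0] at hsq
      nlinarith
    have hcoord : ∀ i, |((b.prod b).repr x i : ℝ)| ≤ T := fun i => by
      have h := (hw0 x (finSumFinEquiv.trans (finCongr (by omega)) i)).trans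
        ((Real.sqrt_le_sqrt hxq).trans_eq (Real.sqrt_sq hT.le))
      rw [B.equivFun_apply, hBdef, Basis.repr_reindex_apply, Equiv.symm_apply_apply] at h
      exact h
    rcases not_and_or.1 (fun h : x.1 = 0 ∧ x.2 = 0 => hx (Prod.ext h.1 h.2)) with h | h
    · exact key _ h h1 fun l => by simpa using hcoord (Sum.inl l)
    · exact key _ h h2 fun l => by simpa using hcoord (Sum.inr l)
  -- some sublattice has no short vector
  obtain ⟨t, ht⟩ : ∃ t : ZMod p, ∀ x : O × O, x ≠ 0 → ψ x.2 = t * ψ x.1 → T ^ 2 < q x := by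
    by_contra hcon
    simp only [not_exists, not_forall, not_lt, exists_prop] at hcon
    choose x hx0 hxψ hxq using hcon
    obtain ⟨f, hf⟩ : ∃ f : ZMod p × Fin m → (Fin (2 * d + 1 + 1) → ℤ), f = fun z =>
        B.equivFun (ζ ^ (z.2 : ℕ) * (x z.1).1, ζ ^ (z.2 : ℕ) * (x z.1).2) := ⟨_, rfl⟩
    have hmem : ∀ z, f z ∈ {z : Fin (2 * d + 1 + 1) → ℤ | ival Q z ≤ T ^ 2} := fun z => by
      have h := hinv (z.2 : ℕ) (x z.1)
      rw [hq] at h
      rw [mem_ofPred_eq, hf]
      refine le_of_eq_of_le h ?_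
      simpa [hq] using hxq z.1
    have hζ0 : ζ ≠ 0 := hζ.ne_zero hm.ne'
    have hfinj : Function.Injective f := by
      rintro ⟨t, k⟩ ⟨t', k'⟩ h
      rw [hf] at h
      obtain ⟨h1, h2⟩ := Prod.mk.injEq .. ▸ B.equivFun.injective h
      have hψ : ψ (ζ ^ (k : ℕ)) ≠ 0 := ((hζ.isUnit hm.ne').pow _ |>.map ψ).ne_zero
      have ht : t = t' := by
        have e1 := congrArg ψ h1
        have e2 := congrArg ψ h2
        simp only [map_mul, hxψ] at e1 e2
        by_contra hne
        refine hbad (x t) (hx0 t) (hxq t) ?_ ?_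
        · have : (t - t') * (ψ (ζ ^ (k : ℕ)) * ψ (x t).1) = 0 := by
            linear_combination e2 - t' * e1
          exact (mul_eq_zero.1 ((mul_eq_zero.1 this).resolve_left (sub_ne_zero.2 hne))).resolve_left
            hψ
        · have : (t - t') * (ψ (ζ ^ (k : ℕ)) * ψ (x t).1) = 0 := by
            linear_combination e2 - t' * e1
          rw [hxψ, (mul_eq_zero.1 ((mul_eq_zero.1 this).resolve_left
            (sub_ne_zero.2 hne))).resolve_left hψ, mul_zero]
      subst ht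
      refine Prod.ext rfl (Fin.ext (hζ.pow_inj k.2 k'.2 ?_))
      rcases not_and_or.1 (fun e : (x t).1 = 0 ∧ (x t).2 = 0 => hx0 t (Prod.ext e.1 e.2)) with e | e
      · exact mul_right_cancel₀ e h1
      · exact mul_right_cancel₀ e h2
    have hle := Set.ncard_le_ncard (s := Set.range f) (Set.range_subset_iff.2 hmem)
      (finite_ival_le hQ _)
    rw [Set.ncard_range_of_injective hfinj, Nat.card_prod, Nat.card_zmod, Nat.card_fin] at hle
    refine not_le.2 hcount ?_
    rw [mul_comm]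
    exact_mod_cast hle
  obtain ⟨G, hGdet, hG⟩ := exists_twist b hb0 ψ t
  refine le_trans (le_of_eq ?_) (densest_ge_sublattice hδ hQ hp.pos
    (M := LinearMap.toMatrix B B G) (by rw [LinearMap.det_toMatrix]; exact hGdet) (T := T)
    fun y hy => ?_)
  · rw [hTpow, hK, hcdef]
    have := (unitVol_pos (2 * d + 1)).ne'
    have := (Real.sqrt_pos.2 hQ.det_pos).ne'
    field_simp
  · obtain ⟨x, rfl⟩ := B.equivFun.surjective y
    rw [B.equivFun_apply, LinearMap.toMatrix_mulVec_repr, ← B.equivFun_apply]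
    have hGx : G x ≠ 0 := by
      intro h0
      have hdet : LinearMap.det G ≠ 0 := fun h => by
        rw [h, abs_zero] at hGdet
        exact (Nat.cast_pos.2 hp.pos).ne hGdet
      haveI : Module.Finite ℤ (O × O) := Module.Finite.of_basis B
      refine hy ?_
      have hinj : Function.Injective (LinearMap.toMatrix B B G).mulVec := by
        refine Matrix.mulVec_injective_iff.2 ?_
        refine Matrix.linearIndependent_cols_of_det_ne_zero ?_
        rwa [LinearMap.det_toMatrix]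
      refine hinj ?_
      rw [mulVec_zero, B.equivFun_apply, LinearMap.toMatrix_mulVec_repr, h0, map_zero]
      rfl
    have h := ht (G x) hGx (hG x)
    rw [hq] at h
    exact h.le

end FA.PackingBounds

end
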