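import Fermat.Agent.SiegelMean.Main
import Fermat.Agent.PackingBounds.Basic
import Mathlib.Analysis.SpecialFunctions.Integrals.Basic
import Mathlib.MeasureTheory.Integral.Layercake

/-!
# The bound of Davenport and Rogers

With the weight `min 1 (max 0 (1 / m - log (t / R)))` at the length `t` the mean over primitive
vectors falls below two for some lattice; then the product of its successive minima is at least
`R ^ m`.
-/

set_option autoImplicit false

noncomputable section

open MeasureTheory Matrix Set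
open scoped ENNReal NNReal
open FA.SLnLattice FA.SiegelMean FA.Perfect FA.Reduction

namespace FA.PackingBounds

variable {n m : ℕ} {R : ℝ}

/-- The weight at a length. -/
def rogersWeight (m : ℕ) (R t : ℝ) : ℝ :=
  if t = 0 then 1 else min 1 (max 0 (1 / (m : ℝ) - Real.log (t / R)))

theorem rogersWeight_nonneg (t : ℝ) : 0 ≤ rogersWeight m R t := by
  rw [rogersWeight]
  split_ifs
  · exact zero_le_one
  · exact le_min zero_le_one (le_max_left _ _)

theorem rogersWeight_le_one (t : ℝ) : rogersWeight m R t ≤ 1 := by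
  rw [rogersWeight]
  split_ifs
  · exact le_rfl
  · exact min_le_left _ _

theorem le_rogersWeight {t : ℝ} (ht : t ≠ 0) (h : rogersWeight m R t < 1) :
    1 / (m : ℝ) - Real.log (t / R) ≤ rogersWeight m R t := by
  rw [rogersWeight, if_neg ht] at h ⊢
  rcases min_choice 1 (max 0 (1 / (m : ℝ) - Real.log (t / R))) with e | e <;> rw [e] at h ⊢
  · exact absurd h (lt_irrefl _)
  · exact le_max_right _ _

theorem measurable_rogersWeight : Measurable (rogersWeight m R) :=
  Measurable.ite (measurableSet_singleton 0) measurable_const (by fun_prop)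

theorem le_rogersWeight_iff (hR : 0 < R) {s t : ℝ} (hs : 0 < s) (hs1 : s ≤ 1) (ht : 0 ≤ t) :
    s ≤ rogersWeight m R t ↔ t ≤ R * Real.exp (1 / (m : ℝ) - s) := by
  rcases eq_or_lt_of_le ht with rfl | htp
  · simp only [rogersWeight, if_true, hs1, true_iff]
    positivity
  · rw [rogersWeight, if_neg htp.ne', le_min_iff, and_iff_right hs1, le_max_iff,
      or_iff_right (not_le.2 hs), le_sub_comm, Real.log_le_iff_le_exp (by positivity),
      div_le_iff₀' hR]

theorem integral_exp_line (hm : 0 < m) :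
    ∫ t in (0 : ℝ)..1, Real.exp (1 - m * t) =
      Real.exp 1 / m * (1 - Real.exp (-(m : ℝ))) := by
  have hm' : (m : ℝ) ≠ 0 := (Nat.cast_pos.2 hm).ne'
  rw [intervalIntegral.integral_eq_sub_of_hasDerivAt
    (f := fun t => -(Real.exp (1 - m * t) / m)) (fun t _ => ?_)
    (Continuous.intervalIntegrable (by fun_prop) _ _)]
  · rw [mul_one, mul_zero, sub_zero, sub_eq_add_neg (1 : ℝ) (m : ℝ), Real.exp_add]
    ring
  · refine ((((hasDerivAt_id t).const_mul (m : ℝ)).const_sub 1).exp.div_const (m : ℝ)).neg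
      |>.congr_deriv ?_
    simp only [id]
    field_simp

/-- The mean of the weight. -/
theorem lintegral_rogersWeight (hR : 0 < R) :
    ∫⁻ x : Fin (n + 1) → ℝ, ENNReal.ofReal (rogersWeight (n + 1) R ‖WithLp.toLp 2 x‖) =
      ENNReal.ofReal (unitVol (n + 1) * R ^ (n + 1) *
        (Real.exp 1 / (n + 1 : ℕ) * (1 - Real.exp (-((n + 1 : ℕ) : ℝ))))) := by
  obtain ⟨m, hm⟩ : ∃ m : ℕ, m = n + 1 := ⟨_, rfl⟩
  subst hm
  rw [lintegral_eq_lintegral_meas_le volume
    (Filter.Eventually.of_forall fun x => rogersWeight_nonneg _)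
    ((measurable_rogersWeight.comp (by fun_prop)).aemeasurable)]
  have hlev : ∀ s ∈ Ioi (0 : ℝ),
      volume {x : Fin (n + 1) → ℝ | s ≤ rogersWeight (n + 1) R ‖WithLp.toLp 2 x‖} =
        (Ioc (0 : ℝ) 1).indicator (fun s => ENNReal.ofReal
          (unitVol (n + 1) * R ^ (n + 1) * Real.exp (1 - ((n + 1 : ℕ) : ℝ) * s))) s := by
    intro s hs
    by_cases h1 : s ≤ 1
    · rw [indicator_of_mem (show s ∈ Ioc (0 : ℝ) 1 from ⟨hs, h1⟩)]
      have e : {x : Fin (n + 1) → ℝ | s ≤ rogersWeight (n + 1) R ‖WithLp.toLp 2 x‖} =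
          WithLp.toLp 2 ⁻¹' Metric.closedBall 0 (R * Real.exp (1 / ((n + 1 : ℕ) : ℝ) - s)) := by
        ext x
        rw [mem_ofPred_eq, le_rogersWeight_iff hR hs h1 (norm_nonneg _), mem_preimage,
          mem_closedBall_zero_iff]
      rw [e, (PiLp.volume_preserving_toLp (Fin (n + 1))).measure_preimage
        measurableSet_closedBall.nullMeasurableSet,
        Measure.addHaar_closedBall volume _ (by positivity), finrank_euclideanSpace,
        Fintype.card_fin, ← ofReal_measureReal (measure_ball_lt_top.ne),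
        ← ENNReal.ofReal_mul (by positivity)]
      rw [mul_pow, ← Real.exp_nat_mul, mul_sub, mul_one_div_cancel (by positivity), unitVol]
      congr 1
      ring
    · rw [indicator_of_notMem (fun h => h1 h.2)]
      refine measure_mono_null (fun x hx => ?_) measure_empty
      exact h1 (hx.trans (rogersWeight_le_one _))
  rw [setLIntegral_congr_fun measurableSet_Ioi hlev, setLIntegral_indicator measurableSet_Ioc,
    Ioc_inter_Ioi, max_self, ← ofReal_integral_eq_lintegral_ofReal, integral_const_mul,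
    ← intervalIntegral.integral_of_le zero_le_one, integral_exp_line (Nat.succ_pos n)]
  · exact (Continuous.integrableOn_Ioc (by fun_prop))
  · exact Filter.Eventually.of_forall fun s =>
      mul_nonneg (mul_nonneg (unitVol_pos n).le (by positivity)) (Real.exp_pos _).le

/-- Some lattice has primitive sum below two. -/
theorem exists_small_theta {f : (Fin n → ℝ) → ℝ≥0∞} (hn : 2 ≤ n) (hf : Measurable f)
    (h : ∫⁻ x, f x < ENNReal.ofReal (2 * zetaVal n)) :
    ∃ g : SLR n, theta (primVecs n) f g < 2 := by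
  haveI : NeZero n := ⟨by omega⟩
  letI : MeasurableSpace (SLR n) := borel _
  haveI : BorelSpace (SLR n) := ⟨rfl⟩
  by_contra hcon
  simp only [not_exists, not_lt] at hcon
  obtain ⟨E, -, hE, hpos, hfin⟩ := exists_fundamentalDomain_finite (coneMeasure n)
  have h1 := (siegel_mean hn (coneMeasure n) hE hf).2
  have h2 : coneMeasure n E * 2 ≤ ∫⁻ g in E, theta (primVecs n) f g ∂coneMeasure n := by
    rw [mul_comm, ← setLIntegral_const]
    exact lintegral_mono fun g => hcon g
  have h3 := (mul_le_mul' (le_refl (ENNReal.ofReal (zetaVal n))) h2).trans_eq h1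
  rw [mul_left_comm, mul_comm (ENNReal.ofReal _), ← ENNReal.ofReal_ofNat (n := 2),
    ← ENNReal.ofReal_mul two_pos.le] at h3
  exact absurd ((ENNReal.mul_le_mul_iff_right hpos.ne' hfin.ne).1 h3) (not_le.2 h)

theorem prim_minimaFamily {P : Matrix (Fin (n + 1)) (Fin (n + 1)) ℝ} (hP : P.PosDef)
    {v : Fin (n + 1) → Fin (n + 1) → ℤ} (hv : IsMinimaFamily P v) (k : Fin (n + 1)) :
    v k ∈ primVecs (n + 1) := by
  have h0 : v k ≠ 0 := fun h => hv.1.ne_zero k (by
    funext i
    simp [castVec, h])
  letI : MeasurableSpace (SLR (n + 1)) := borel _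
  haveI : BorelSpace (SLR (n + 1)) := ⟨rfl⟩
  obtain ⟨e, ⟨u, hu⟩, he⟩ := exists_mul_prim h0
  obtain ⟨r, hr⟩ : ∃ r : ℝ, r = ((e + 1 : ℕ) : ℝ) := ⟨_, rfl⟩
  have hcast : castVec (v k) = r • castVec u := funext fun i => by
    rw [← he, hr]
    simp [castVec]
  have hnot : castVec u ∉ Submodule.span ℝ ((castVec ∘ v) '' {j | j < k}) := fun h =>
    hv.1.notMem_span_image (s := {j | j < k}) (fun hk : k < k => lt_irrefl k hk)
      (show castVec (v k) ∈ _ from hcast ▸ Submodule.smul_mem _ _ h)
  have hval : ival P (v k) = r ^ 2 * ival P u := by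
    show quad P (castVec (v k)) = r ^ 2 * quad P (castVec u)
    rw [hcast, quad, quad, mulVec_smul, dotProduct_smul, smul_dotProduct, smul_eq_mul, smul_eq_mul,
      sq, mul_assoc]
  have hle := hv.2.2 k u hnot
  rw [hval] at hle
  have hu0 : u ≠ 0 := prim_subset_nonzero hu
  have h1 : r ^ 2 ≤ 1 :=
    le_of_mul_le_mul_right (hle.trans_eq (one_mul _).symm) (ival_pos hP hu0)
  have he0 : e = 0 := by
    rw [hr, sq_le_one_iff₀ (Nat.cast_nonneg _)] at h1
    exact Nat.le_zero.1 (Nat.le_of_succ_le_succ (Nat.cast_le_one.1 h1))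
  rw [← he, he0]
  simpa using hu

/-- **The theorem of Davenport and Rogers.** -/
theorem davenport_rogers (hn : 1 ≤ n) :
    ∃ δ ∈ latticePackingDensities (n + 1),
      2 * ((n + 1 : ℕ) : ℝ) * zetaVal (n + 1) /
        (Real.exp 1 * (1 - Real.exp (-((n + 1 : ℕ) : ℝ)))) / 2 ^ (n + 1) ≤ δ := by
  classical
  obtain ⟨δ, hδ⟩ := exists_densest n
  refine ⟨δ, hδ.1, ?_⟩
  obtain ⟨b, hb⟩ : ∃ b : ℝ, b = 2 * ((n + 1 : ℕ) : ℝ) * zetaVal (n + 1) /
      (Real.exp 1 * (1 - Real.exp (-((n + 1 : ℕ) : ℝ)))) := ⟨_, rfl⟩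
  rw [← hb]
  have hz : 0 < zetaVal (n + 1) := by
    letI : MeasurableSpace (SLR (n + 1)) := borel _
    haveI : BorelSpace (SLR (n + 1)) := ⟨rfl⟩
    exact zetaVal_pos hn
  have he : 0 < 1 - Real.exp (-((n + 1 : ℕ) : ℝ)) :=
    sub_pos.2 (Real.exp_lt_one_iff.2 (by
      rw [neg_lt_zero]
      exact_mod_cast Nat.succ_pos n))
  have hb0 : 0 < b := hb ▸ by positivity
  refine le_of_forall_lt_imp_le_of_dense fun c hc => ?_
  rcases le_or_gt c 0 with hc0 | hc0
  · obtain ⟨B, r, hB, hr, -, e⟩ := hδ.1
    exact hc0.trans (e ▸ div_nonneg measureReal_nonneg (abs_nonneg _))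
  obtain ⟨c', hc'⟩ : ∃ c' : ℝ, c' = c * 2 ^ (n + 1) := ⟨_, rfl⟩
  have hc'0 : 0 < c' := hc' ▸ by positivity
  have hc'b : c' < b := hc' ▸ (lt_div_iff₀ (by positivity)).1 hc
  have hV := unitVol_pos n
  obtain ⟨R, hR, hRm⟩ : ∃ R : ℝ, 0 < R ∧ R ^ (n + 1) = c' / unitVol (n + 1) :=
    ⟨(c' / unitVol (n + 1)) ^ ((((n + 1 : ℕ) : ℝ))⁻¹), by positivity,
      Real.rpow_inv_natCast_pow (by positivity) (Nat.succ_ne_zero n)⟩
  obtain ⟨g, hg⟩ := exists_small_theta (n := n + 1)
    (f := fun x => ENNReal.ofReal (rogersWeight (n + 1) R ‖WithLp.toLp 2 x‖)) (by omega)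
    (measurable_rogersWeight.comp (by fun_prop)).ennreal_ofReal (by
      rw [lintegral_rogersWeight hR, hRm, mul_div_cancel₀ _ hV.ne',
        ENNReal.ofReal_lt_ofReal_iff (by positivity)]
      rw [hb, lt_div_iff₀ (by positivity)] at hc'b
      rw [div_mul_eq_mul_div, ← mul_div_assoc, div_lt_iff₀ (by positivity)]
      linarith)
  have hdet : ((g.1)ᵀ : Matrix (Fin (n + 1)) (Fin (n + 1)) ℝ).det = 1 := by
    rw [det_transpose]; exact g.2
  obtain ⟨P, hPdef⟩ : ∃ P, P = (g.1)ᵀᵀ * (g.1)ᵀ := ⟨_, rfl⟩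
  have hP : P.PosDef := hPdef ▸ posDef_transpose_mul_self (by rw [hdet]; exact one_ne_zero)
  obtain ⟨v, hv⟩ := exists_minimaFamily hP
  obtain ⟨t, ht⟩ : ∃ t : Fin (n + 1) → ℝ,
      t = fun k => ‖WithLp.toLp 2 (castVec (v k) ᵥ* g.1)‖ := ⟨_, rfl⟩
  have htk : ∀ k, succMin P k = t k ^ 2 := fun k => by
    rw [succMin_eq hv, hPdef, ← norm_latticePoint_sq, latticePoint, mulVec_transpose, ht]
  have htpos : ∀ k, 0 < t k := fun k => by
    refine (ht ▸ norm_nonneg _ : 0 ≤ t k).lt_of_ne fun h => ?_
    have := (succMin_attained hP).2.2.2 k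
    rw [htk, ← h] at this
    simp at this
  -- the signed vectors are distinct primitive vectors
  have hinj : Function.Injective fun p : Fin (n + 1) × Bool =>
      (⟨if p.2 then v p.1 else -v p.1, by
        split_ifs
        · exact prim_minimaFamily hP hv p.1
        · show FA.MinkowskiHlawka.content (-v p.1) = 1
          refine Eq.trans ?_ (prim_minimaFamily hP hv p.1)
          simp [FA.MinkowskiHlawka.content]⟩ :
        primVecs (n + 1)) := by
    rintro ⟨i, s⟩ ⟨j, s'⟩ h
    have h' : (if s then v i else -v i) = (if s' then v j else -v j) := congrArg Subtype.val h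
    have key : ∀ a : ℝ, castVec (v i) = a • castVec (v j) → i = j := fun a e => by
      by_contra hij
      exact hv.1.notMem_span_image (s := {k | k = j}) (show i ∉ {k | k = j} from hij)
        (show castVec (v i) ∈ _ from e ▸ Submodule.smul_mem _ _
          (Submodule.subset_span ⟨j, rfl, rfl⟩))
    have hne : castVec (v i) ≠ 0 := hv.1.ne_zero i
    have hij : i = j := by
      cases s <;> cases s' <;> simp only [if_true, if_false, Bool.false_eq_true] at h'
      · exact key 1 (by rw [one_smul, neg_inj.1 h'])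
      · exact key (-1) (funext fun l => by simp [castVec, ← h'])
      · exact key (-1) (funext fun l => by simp [castVec, h'])
      · exact key 1 (by rw [one_smul, h'])
    subst hij
    refine Prod.ext rfl ?_
    cases s <;> cases s' <;> simp only [if_true, if_false, Bool.false_eq_true] at h' <;>
      first
      | rfl
      | exact absurd (show castVec (v i) = 0 from funext fun l => by
          have := congrFun h' l
          simp only [Pi.neg_apply] at this
          simp only [castVec, Pi.zero_apply, Int.cast_eq_zero]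
          omega) hne
  have hsum : ∑ k, rogersWeight (n + 1) R (t k) < 1 := by
    have h1 := (ENNReal.tsum_comp_le_tsum_of_injective hinj fun w : primVecs (n + 1) =>
      ENNReal.ofReal (rogersWeight (n + 1) R
        ‖WithLp.toLp 2 (castVec (w : Fin (n + 1) → ℤ) ᵥ* g.1)‖)).trans_lt hg
    have e : ∀ k, castVec (-v k) = -castVec (v k) := fun k => funext fun l => by simp [castVec]
    simp only [tsum_fintype, Fintype.sum_prod_type, Fintype.sum_bool, if_true, Bool.false_eq_true,
      if_false, e, neg_vecMul, WithLp.toLp_neg, norm_neg, ← two_mul, ← Finset.mul_sum] at h1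
    rw [← ENNReal.ofReal_sum_of_nonneg fun k _ => rogersWeight_nonneg _] at h1
    have h2 := (ENNReal.mul_lt_mul_iff_right two_ne_zero ENNReal.ofNat_ne_top).1
      (h1.trans_eq (mul_one (2 : ℝ≥0∞)).symm)
    rw [ht]
    exact ENNReal.ofReal_lt_one.1 h2
  have hlt : ∀ k, rogersWeight (n + 1) R (t k) < 1 := fun k =>
    lt_of_le_of_lt (Finset.single_le_sum (f := fun i => rogersWeight (n + 1) R (t i))
      (fun i _ => rogersWeight_nonneg _) (Finset.mem_univ k)) hsum
  have hlog : 0 ≤ ∑ k, Real.log (t k / R) := by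
    have h := Finset.sum_le_sum (s := Finset.univ) fun k _ =>
      le_rogersWeight (htpos k).ne' (hlt k)
    rw [Finset.sum_sub_distrib, Finset.sum_const, Finset.card_univ, Fintype.card_fin, nsmul_eq_mul,
      mul_one_div_cancel (by positivity)] at h
    linarith
  have hprod : R ^ (n + 1) ≤ ∏ k, t k := by
    rw [← Real.log_prod fun k _ => (div_pos (htpos k) hR).ne',
      Real.log_nonneg_iff (Finset.prod_pos fun k _ => div_pos (htpos k) hR),
      Finset.prod_div_distrib, Finset.prod_const, Finset.card_univ, Fintype.card_fin,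
      le_div_iff₀ (by positivity), one_mul] at hlog
    exact hlog
  refine le_trans (le_trans (b := unitVol (n + 1) * (R ^ (n + 1) / 2 ^ (n + 1))) (le_of_eq ?_) ?_)
    (densest_ge_minima hδ hP)
  · rw [hRm, hc']
    field_simp
  · gcongr
    refine Real.le_sqrt_of_sq_le ?_
    rw [hPdef, det_mul, det_transpose, hdet, one_mul, div_one, ← hPdef]
    simp only [htk, Finset.prod_pow]
    exact pow_le_pow_left₀ (by positivity) hprod 2

end FA.PackingBounds

end
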