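import Fermat.Agent.SiegelMean.AlmostEvery

/-!
# The random Minkowski theorem

The lattices without primitive points in a set are rare when the set is large, by the bound on the
variance.
-/

set_option autoImplicit false

noncomputable section

open MeasureTheory Matrix Set
open scoped ENNReal
open FA.SLnLattice FA.SiegelMean
open FA.MinkowskiHlawka (castVec)

namespace FA.PackingBounds

variable {q : ℕ} [MeasurableSpace (SLR (q + 3))] [BorelSpace (SLR (q + 3))]
  {μ : Measure (SLR (q + 3))} [μ.IsHaarMeasure] {D : Set (SLR (q + 3))}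

/-- **The random Minkowski theorem.** -/
theorem measure_avoiding_le (hD : IsFundamentalDomain (Gamma (q + 3)) D μ) (hDf : μ D ≠ ∞)
    {S : Set (Fin (q + 3) → ℝ)} (hS : MeasurableSet S) (hfin : volume S ≠ ∞) (h0 : volume S ≠ 0) :
    (μ.restrict D) {g | ∀ v ∈ primVecs (q + 3), castVec v ᵥ* g.1 ∉ S} ≤
      μ D * ENNReal.ofReal (2 * zetaVal (q + 3) / (volume S).toReal) := by
  have hV : 0 < primExpect S :=
    div_pos (ENNReal.toReal_pos h0 hfin) (zetaVal_pos (m := q + 2) (by omega))
  refine le_trans (measure_mono fun g hg => ?_) ((measure_deviation_le hD hDf hS hfin one_pos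
    hV).trans (le_of_eq ?_))
  · have e : primPoints S g = ∅ := Set.eq_empty_of_forall_notMem fun v hv => hg v hv.1 hv.2
    rw [mem_ofPred_eq, countIn_toReal, e, ncard_empty, Nat.cast_zero, one_mul, zero_sub, abs_neg,
      abs_of_pos hV]
  · congr 2
    rw [primExpect, one_pow, one_mul, div_div_eq_mul_div]

end FA.PackingBounds

end
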